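import Fermat.Agent.SiegelConstant.Formula

/-!
# The growth of the values at negative integers

The value at `k` of the zeta function is at least one, so Siegel's value is at least
`((k - 1)! / (2 π) ^ k) ^ n`.
-/

set_option autoImplicit false
set_option linter.unusedSectionVars false

noncomputable section

open NumberField InfinitePlace Module Filter Complex Topology
open scoped Real nonZeroDivisors Classical Nat

namespace FA.IrregularTotallyReal

open FA.SiegelConstant

variable {K : Type*} [Field K] [NumberField K] [IsTotallyReal K]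

theorem one_le_norm_dedekindZeta {k : ℕ} (hk : 2 ≤ k) : 1 ≤ ‖dedekindZeta K (k : ℂ)‖ := by
  have hs : 1 < (k : ℂ).re := by
    rw [natCast_re]
    exact_mod_cast (by omega : 1 < k)
  have hreal : ∀ I : (Ideal (𝓞 K))⁰, FA.AbelianZeta.normPow (k : ℂ) I =
      (((((Ideal.absNorm (I : Ideal (𝓞 K)) : ℕ) : ℝ) ^ k)⁻¹ : ℝ) : ℂ) := fun I => by
    show ((Ideal.absNorm (I : Ideal (𝓞 K)) : ℕ) : ℂ) ^ (-(k : ℂ)) = _
    rw [cpow_neg, cpow_natCast]
    push_cast
    rfl
  have hsum : Summable fun I : (Ideal (𝓞 K))⁰ =>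
      ((((Ideal.absNorm (I : Ideal (𝓞 K)) : ℕ) : ℝ) ^ k)⁻¹) := by
    refine Complex.summable_ofReal.1 ?_
    exact (FA.AbelianZeta.summable_norm_normPow hs).of_norm.congr hreal
  rw [FA.AbelianZeta.dedekindZeta_eq_tsum hs, tsum_congr hreal, ← ofReal_tsum, norm_real,
    Real.norm_of_nonneg (tsum_nonneg fun I => by positivity)]
  refine le_trans (le_of_eq ?_) (hsum.le_tsum 1 fun I _ => by positivity)
  simp

/-- **The lower bound.** -/
theorem le_abs_siegelTotal {k : ℕ} (hk : Even k) (hk4 : 4 ≤ k) :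
    (((k - 1)! : ℝ) / (2 * π) ^ k) ^ finrank ℚ K ≤ |(siegelTotal K k : ℝ)| := by
  have h := congrArg norm (dedekindZeta_eq_total (K := K) hk (by omega)
    (hk4.trans (Nat.le_mul_of_pos_right _ finrank_pos)))
  rw [norm_mul, norm_div, norm_pow, norm_neg, norm_mul, norm_mul, norm_mul, norm_pow,
    Complex.norm_natCast, norm_real, norm_real, Complex.norm_I, mul_one, Complex.norm_ofNat,
    Real.norm_of_nonneg Real.pi_pos.le, Real.norm_of_nonneg SiegelKlingen.rootDiscr_pos.le,
    ← ofReal_ratCast, norm_real, Real.norm_eq_abs, Rat.cast_div, abs_div, Rat.cast_pow,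
    Rat.cast_natCast, abs_of_nonneg (by positivity : (0 : ℝ) ≤ _ ^ (k - 1))] at h
  have h1 := one_le_norm_dedekindZeta (K := K) (k := k) (by omega)
  rw [h] at h1
  have hd : (1 : ℝ) ≤ ((discr K).natAbs : ℝ) :=
    Nat.one_le_cast.2 (Nat.one_le_iff_ne_zero.2 (Int.natAbs_ne_zero.2 (discr_ne_zero K)))
  have hr : 1 ≤ SiegelKlingen.rootDiscr K := by
    rw [SiegelKlingen.rootDiscr, Real.one_le_sqrt, ← Int.cast_abs, Int.abs_eq_natAbs]
    exact_mod_cast hd
  rw [div_pow, ← pow_mul, div_le_iff₀ (by positivity)]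
  have hd1 : (1 : ℝ) ≤ ((discr K).natAbs : ℝ) ^ (k - 1) := one_le_pow₀ hd
  rw [div_mul_div_comm, one_le_div (by positivity)] at h1
  have hf : (0 : ℝ) ≤ ((k - 1)! : ℝ) ^ finrank ℚ K := by positivity
  calc ((k - 1)! : ℝ) ^ finrank ℚ K
      ≤ ((k - 1)! : ℝ) ^ finrank ℚ K * SiegelKlingen.rootDiscr K *
          ((discr K).natAbs : ℝ) ^ (k - 1) :=
        le_trans (le_mul_of_one_le_right hf hr)
          (le_mul_of_one_le_right (mul_nonneg hf (zero_le_one.trans hr)) hd1)
    _ ≤ (2 * π) ^ (k * finrank ℚ K) * |(siegelTotal K k : ℝ)| := h1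
    _ = |(siegelTotal K k : ℝ)| * (2 * π) ^ (k * finrank ℚ K) := mul_comm _ _

theorem tendsto_factorial_div_pow :
    Tendsto (fun k : ℕ => ((k - 1)! : ℝ) / (2 * π) ^ k) atTop atTop := by
  have h0 : Tendsto (fun m : ℕ => ((2 * π) ^ m / (m ! : ℝ))⁻¹) atTop atTop := by
    refine Tendsto.inv_tendsto_nhdsGT_zero (tendsto_nhdsWithin_iff.2
      ⟨FloorSemiring.tendsto_pow_div_factorial_atTop _, Eventually.of_forall fun m => ?_⟩)
    show (0 : ℝ) < (2 * π) ^ m / (m ! : ℝ)
    have := Real.pi_pos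
    positivity
  refine (tendsto_add_atTop_iff_nat 1).1 ?_
  refine (h0.const_mul_atTop (inv_pos.2 Real.two_pi_pos)).congr fun m => ?_
  rw [Nat.add_sub_cancel, pow_succ, inv_div, div_mul_eq_div_div_swap]
  field_simp

/-- **The values tend to infinity.** -/
theorem exists_lt_abs_siegelTotal (D : ℝ) :
    ∃ N : ℕ, ∀ k : ℕ, N ≤ k → Even k → D < |(siegelTotal K k : ℝ)| := by
  obtain ⟨N, hN⟩ := (tendsto_atTop_atTop.1 tendsto_factorial_div_pow) (|D| + 1)
  refine ⟨max N 4, fun k hk hev => ?_⟩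
  have h1 := hN k (le_of_max_le_left hk)
  refine lt_of_lt_of_le (lt_of_le_of_lt (le_abs_self D) (lt_add_one _))
    ((h1.trans ?_).trans (le_abs_siegelTotal hev (le_of_max_le_right hk)))
  exact le_self_pow₀ (le_trans (le_add_of_nonneg_left (abs_nonneg D)) h1) finrank_pos.ne'

end FA.IrregularTotallyReal

end
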