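import Fermat.Agent.IrregularTotallyReal.Valuations
import Fermat.Agent.IrregularTotallyReal.Growth
import Mathlib.NumberTheory.LSeries.PrimesInAP

/-!
# Infinitely many irregular primes

Along `k = 4 Q`, `Q` a prime of a suitable progression, the numerator of Siegel's value outgrows the
bounded part supported on a given finite set, and no prime `q` outside it has `q - 1 ∣ k n`; so a
new prime divides it, and Kummer's congruence moves `k` below `q + 2`.
-/

set_option autoImplicit false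
set_option linter.unusedSectionVars false
set_option linter.style.haveILetI false

noncomputable section

open NumberField Module
open scoped Classical

namespace FA.IrregularTotallyReal

open FA.SiegelConstant

variable {K : Type*} [Field K] [NumberField K] [IsTotallyReal K]

variable (K) in
/-- Irregular for `K`: `p` divides the numerator of a zeta value `2 ^ (-n) ζ (1 - k)`, `k ≤ p + 1`,
outside the classes of the poles. -/
def IsIrregular (p : ℕ) : Prop :=
  ∃ k, Even k ∧ 4 ≤ k ∧ k ≤ p + 1 ∧ ¬(p - 1) ∣ k * finrank ℚ K ∧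
    p ∣ (siegelTotal K k).num.natAbs

/-- A progression `1 (mod M)` in which `e Q + 1` is composite for the finitely many `e`. -/
theorem exists_progression (M : ℕ) (hM : M ≠ 0) (E : Finset ℕ) (hE : ∀ e ∈ E, e ≠ 0) :
    ∃ L r B : ℕ, L ≠ 0 ∧ M ∣ L ∧ r.Coprime L ∧ r ≡ 1 [MOD M] ∧
      ∀ Q, B < Q → Q ≡ r [MOD L] → ∀ e ∈ E, ¬(e * Q + 1).Prime := by
  induction E using Finset.induction_on with
  | empty =>
    exact ⟨M, 1, 0, hM, dvd_rfl, Nat.coprime_one_left M, Nat.ModEq.refl 1, fun _ _ _ e he =>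
      absurd he (Finset.notMem_empty e)⟩
  | insert e E _ ih =>
    obtain ⟨L, r, B, hL, hML, hr, hr1, h⟩ := ih fun i hi => hE i (Finset.mem_insert_of_mem hi)
    have he := hE e (Finset.mem_insert_self e E)
    obtain ⟨l, hl, hlp⟩ := Nat.exists_infinite_primes (max L e + 1)
    have hlL : L.Coprime l := ((Nat.Prime.coprime_iff_not_dvd hlp).2
      fun hd => by have := Nat.le_of_dvd (Nat.pos_of_ne_zero hL) hd; omega).symm
    haveI : Fact l.Prime := ⟨hlp⟩
    have hez : (e : ZMod l) ≠ 0 := by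
      rw [Ne, ZMod.natCast_eq_zero_iff]
      exact fun hd => by have := Nat.le_of_dvd (Nat.pos_of_ne_zero he) hd; omega
    obtain ⟨⟨r', hr', hr''⟩, -⟩ : ∃ c, c = Nat.chineseRemainder hlL r
        ((-(e : ZMod l)⁻¹).val) := ⟨_, rfl⟩
    have hx : ((r' : ℕ) : ZMod l) = -(e : ZMod l)⁻¹ := by
      rw [(ZMod.natCast_eq_natCast_iff _ _ _).2 hr'', ZMod.natCast_val, ZMod.cast_id]
    refine ⟨L * l, r', max B l, mul_ne_zero hL hlp.ne_zero, hML.mul_right _, ?_,
      ((hr'.of_dvd hML)).trans hr1, fun Q hQ hQr i hi => ?_⟩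
    · refine Nat.Coprime.mul_right (hr'.gcd_eq.trans hr)
        ((hlp.coprime_iff_not_dvd.2 fun hd => ?_).symm)
      rw [← ZMod.natCast_eq_zero_iff, hx, neg_eq_zero, inv_eq_zero] at hd
      exact hez hd
    · rcases Finset.mem_insert.1 hi with rfl | hi
      · have h0 : ((i * Q + 1 : ℕ) : ZMod l) = 0 := by
          push_cast
          rw [(ZMod.natCast_eq_natCast_iff _ _ _).2 (hQr.of_dvd (dvd_mul_left l L)), hx, mul_neg,
            mul_inv_cancel₀ hez, neg_add_cancel]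
        rw [ZMod.natCast_eq_zero_iff] at h0
        intro hp
        have := (Nat.prime_dvd_prime_iff_eq hlp hp).1 h0
        have : Q ≤ i * Q := Nat.le_mul_of_pos_left _ (Nat.pos_of_ne_zero he)
        omega
      · exact h Q (by omega) ((hQr.of_dvd (dvd_mul_right L l)).trans hr') i hi

/-- Powers of the primes of a finite set in the numerators are bounded along a progression. -/
theorem exists_supported_bound (T : Finset ℕ) (hT : ∀ p ∈ T, p.Prime) :
    ∃ M D : ℕ, M ≠ 0 ∧ D ≠ 0 ∧ ∀ s : ℕ, s ≠ 0 →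
      (siegelTotal K (4 + M * s)).num.natAbs ≠ 0 →
      (∀ q, q.Prime → q ∣ (siegelTotal K (4 + M * s)).num.natAbs → q ∈ T) →
        (siegelTotal K (4 + M * s)).num.natAbs ≤ D := by
  have h : ∀ p : T, ∃ M C : ℕ, M ≠ 0 ∧ ∀ s : ℕ, s ≠ 0 →
      ¬(p : ℕ) ^ C ∣ (siegelTotal K (4 + M * s)).num.natAbs := fun p => by
    haveI : Fact (p : ℕ).Prime := ⟨hT p p.2⟩
    exact exists_pow_not_dvd_num (K := K) (by decide) le_rfl
  choose M C hM h using h
  refine ⟨∏ p, M p, ∏ p : T, (p : ℕ) ^ C p, Finset.prod_ne_zero_iff.2 fun p _ => hM p,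
    Finset.prod_ne_zero_iff.2 fun p _ => pow_ne_zero _ (hT p p.2).ne_zero,
    fun s hs hne hsupp => Nat.le_of_dvd (Finset.prod_pos fun p _ => pow_pos (hT p p.2).pos _) ?_⟩
  rw [Nat.dvd_iff_prime_pow_dvd_dvd]
  intro q e hq hqe
  rcases Nat.eq_zero_or_pos e with rfl | he
  · exact (pow_zero q).symm ▸ one_dvd _
  have hqT := hsupp q hq ((dvd_pow_self q he.ne').trans hqe)
  refine (pow_dvd_pow q ?_).trans
    (Finset.dvd_prod_of_mem (fun p : T => (p : ℕ) ^ C p) (Finset.mem_univ ⟨q, hqT⟩))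
  by_contra hlt
  obtain ⟨c, hc⟩ := Finset.dvd_prod_of_mem M (Finset.mem_univ (⟨q, hqT⟩ : T))
  refine h ⟨q, hqT⟩ (c * s) (mul_ne_zero (fun h0 => ?_) hs) ?_
  · rw [h0, mul_zero] at hc
    exact Finset.prod_ne_zero_iff.2 (fun p _ => hM p) hc
  · rw [← mul_assoc, ← hc]
    exact (pow_dvd_pow q (not_le.1 hlt).le).trans hqe

/-- Kummer's congruence keeps the prime in the numerator. -/
theorem isIrregular_of_dvd {p : ℕ} [Fact p.Prime] (h5 : 5 ≤ p) {k : ℕ} (hk : Even k) (hk4 : 4 ≤ k)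
    (hdvd : ¬(p - 1) ∣ k * finrank ℚ K) (h : p ∣ (siegelTotal K k).num.natAbs) :
    IsIrregular K p := by
  have hp : p.Prime := Fact.out
  have hev : Even (p - 1) := hp.even_sub_one (by omega)
  obtain ⟨k', hk'⟩ : ∃ k', k' = 4 + (k - 4) % (p - 1) := ⟨_, rfl⟩
  have hlt : (k - 4) % (p - 1) < p - 1 := Nat.mod_lt _ (by omega)
  have hmod : k ≡ k' [MOD (p - 1) * p ^ 0] := by
    rw [pow_zero, mul_one, hk']
    conv_lhs => rw [← Nat.add_sub_cancel' hk4]
    exact (Nat.mod_modEq _ _).symm.add_left _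
  have hev' : Even k' := by
    have h2 := hmod.of_dvd (dvd_mul_of_dvd_left hev.two_dvd _)
    rw [Nat.even_iff] at hk ⊢
    rw [Nat.ModEq] at h2
    omega
  have hle : k' ≤ p + 1 := by
    rw [Nat.even_iff] at hev' hev
    omega
  have hdvd' : ¬(p - 1) ∣ k' * finrank ℚ K := fun hh => hdvd
    (((hmod.of_dvd (dvd_mul_right _ _)).mul_right _).dvd_iff dvd_rfl |>.2 hh)
  have hn := finrank_pos (R := ℚ) (M := K)
  obtain ⟨r, hr, e⟩ := TotallyRealKummer.kummer (K := K) h5 hk (by omega) (by omega)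
    (hk4.trans (Nat.le_mul_of_pos_right _ hn)) (show 2 ≤ k' by omega) (by omega)
    ((show 4 ≤ k' by omega).trans (Nat.le_mul_of_pos_right _ hn)) hdvd hmod
  refine ⟨k', hev', by omega, hle, hdvd', ?_⟩
  obtain ⟨v, hv⟩ : ∃ v, v = siegelTotal K k' := ⟨_, rfl⟩
  obtain ⟨u, hu⟩ : ∃ u, u = siegelTotal K k := ⟨_, rfl⟩
  rw [← hv, ← hu, pow_one] at e
  rw [← hu] at h
  rw [← hv]
  have key : (v.num : ℤ) * (u.den * r.den : ℕ) =
      (v.den : ℤ) * (u.num * r.den + (p : ℤ) * r.num * u.den) := by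
    refine Int.cast_injective (α := ℚ) ?_
    push_cast
    rw [← Rat.den_mul_eq_num v, ← Rat.den_mul_eq_num u, ← Rat.den_mul_eq_num r]
    linear_combination (v.den : ℚ) * u.den * r.den * e
  have h1 : (p : ℤ) ∣ v.num * (u.den * r.den : ℕ) := by
    rw [key]
    exact dvd_mul_of_dvd_right (dvd_add (dvd_mul_of_dvd_left (Int.natCast_dvd.2 h) _)
      (dvd_mul_of_dvd_left (dvd_mul_right _ _) _)) _
  rcases (Nat.prime_iff_prime_int.1 hp).dvd_or_dvd h1 with h1 | h1
  · exact Int.natCast_dvd.1 h1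
  · rcases hp.dvd_mul.1 (Int.natCast_dvd_natCast.1 h1) with h1 | h1
    · exact absurd (Nat.eq_one_of_dvd_coprimes u.reduced h h1) hp.ne_one
    · exact absurd h1 hr

variable (K) in
/-- **Infinitely many irregular primes.** -/
theorem infinite_irregular : {p : ℕ | p.Prime ∧ 5 ≤ p ∧ IsIrregular K p}.Infinite := by
  refine Set.infinite_of_forall_exists_gt fun N => ?_
  obtain ⟨n, hn⟩ : ∃ n, n = finrank ℚ K := ⟨_, rfl⟩
  have hn0 : n ≠ 0 := hn ▸ finrank_pos.ne'
  obtain ⟨T, hT⟩ : ∃ T, T = (Finset.range (N + 4 * n + 6)).filter Nat.Prime := ⟨_, rfl⟩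
  obtain ⟨M, D, hM, hD, hbound⟩ := exists_supported_bound (K := K) T
    fun p hp => (Finset.mem_filter.1 (hT ▸ hp)).2
  obtain ⟨L, r, B, hL, hML, hr, hr1, hprog⟩ := exists_progression (4 * M) (by omega)
    (4 * n).divisors fun e he => (Nat.pos_of_mem_divisors he).ne'
  obtain ⟨G, hG⟩ := exists_lt_abs_siegelTotal (K := K) (D : ℝ)
  obtain ⟨Q, hQ, hQp, hQr⟩ := Nat.forall_exists_prime_gt_and_modEq (max B G + 4 * n + 2) hL hr
  obtain ⟨s, hs⟩ := (Nat.modEq_iff_dvd' hQp.one_le).1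
    ((hQr.of_dvd hML).trans hr1).symm
  have hk : 4 * Q = 4 + M * (16 * s) := by
    have : 4 * M * s * 4 = M * (16 * s) := by ring
    omega
  have hs0 : 16 * s ≠ 0 := fun h0 => by
    rw [h0, mul_zero] at hk
    omega
  have hev : Even (4 * Q) := (show Even 4 by decide).mul_right _
  have hv0 := siegelTotal_ne_zero (K := K) hev (by omega)
    (le_trans (show 4 ≤ 4 * Q by omega) (Nat.le_mul_of_pos_right _ finrank_pos))
  have hbig : D < (siegelTotal K (4 * Q)).num.natAbs := by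
    have h1 := hG (4 * Q) (by omega) hev
    have h2 : |(siegelTotal K (4 * Q) : ℝ)| ≤ ((siegelTotal K (4 * Q)).num.natAbs : ℝ) := by
      rw [Nat.cast_natAbs, Int.cast_abs, Rat.cast_def, abs_div, Nat.abs_cast]
      exact div_le_self (abs_nonneg _) (Nat.one_le_cast.2 (siegelTotal K (4 * Q)).den_pos)
    exact_mod_cast h1.trans_le h2
  obtain ⟨q, hqp, hqd, hqT⟩ : ∃ q, q.Prime ∧ q ∣ (siegelTotal K (4 * Q)).num.natAbs ∧ q ∉ T := by
    by_contra hh
    push Not at hh
    rw [hk] at hbig hh hv0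
    exact absurd (hbound _ hs0 (Int.natAbs_ne_zero.2 (Rat.num_ne_zero.2 hv0)) hh) (not_le.2 hbig)
  have hqbig : N + 4 * n + 6 ≤ q := by
    by_contra hh
    exact hqT (hT ▸ Finset.mem_filter.2 ⟨Finset.mem_range.2 (by omega), hqp⟩)
  have hdvd : ¬(q - 1) ∣ 4 * Q * finrank ℚ K := fun hh => by
    rw [← hn, show 4 * Q * n = Q * (4 * n) by ring] at hh
    by_cases hQd : Q ∣ q - 1
    · obtain ⟨e, he⟩ := hQd
      rw [he] at hh
      have he' : e ∣ 4 * n := (Nat.mul_dvd_mul_iff_left hQp.pos).1 hh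
      refine hprog Q (by omega) hQr e (Nat.mem_divisors.2 ⟨he', by omega⟩) ?_
      rwa [mul_comm e, ← he, Nat.sub_add_cancel hqp.one_le]
    · have := Nat.le_of_dvd (by omega)
        (((hQp.coprime_iff_not_dvd.2 hQd).symm).dvd_of_dvd_mul_left hh)
      omega
  haveI : Fact q.Prime := ⟨hqp⟩
  exact ⟨q, ⟨hqp, by omega, isIrregular_of_dvd (by omega) hev (by omega) hdvd hqd⟩, by omega⟩

end FA.IrregularTotallyReal

end
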