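import Fermat.Agent.PadicEulerFactor.Interpolation

/-!
# The `p`-adic size of Siegel's values of large weight, every prime

For every prime `p`, also `2`, `3` and those with `p - 1 ∣ k n`, Siegel's value at
`k + 4 (p - 1) p ^ A t` has the `p`-adic absolute value of the value at `k` without Euler factors,
so the powers of a finite set of primes in its numerator are bounded.
-/

set_option autoImplicit false
set_option linter.unusedSectionVars false
set_option linter.style.haveILetI false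

noncomputable section

open NumberField Module
open UpperHalfPlane (qExpansion)
open scoped Classical MatrixGroups ModularForm

namespace FA.IrregularTotallyReal

open FA.PadicEulerFactor FA.SiegelConstant FA.SerreDenominators FA.Eis

variable {p : ℕ} [Fact p.Prime]
variable {K : Type*} [Field K] [NumberField K] [IsTotallyReal K]

/-- A unit form of a weight dividing `4 (p - 1)` and divisible by `p - 1`, for every prime. -/
theorem exists_unit_any : ∃ (w₀ c : ℕ) (B : ℤ) (G : UpperHalfPlane → ℂ) (Y U : PowerSeries ℤ),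
    Even w₀ ∧ w₀ ≠ 0 ∧ p - 1 ∣ w₀ ∧ 4 * (p - 1) = w₀ * c ∧ ¬(p : ℤ) ∣ B ∧ IsLv p (w₀ : ℤ) G ∧
      HasQ 1 G ((PowerSeries.C B + (p : PowerSeries ℤ) * Y).map (Int.castRingHom ℂ)) ∧
      HasQ 1 (Eis.W p (w₀ : ℤ) G) (((p : PowerSeries ℤ) * U).map (Int.castRingHom ℂ)) := by
  have hp : p.Prime := Fact.out
  rcases Nat.lt_or_ge p 5 with h | h
  · obtain ⟨q, hq⟩ : p ∣ 240 := by interval_cases p <;> simp_all (config := { decide := true })
    have hE : qExpansion 1 ⇑(ModularForm.mcast (show (4 : ℤ) = ((4 : ℕ) : ℤ) from rfl)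
        ModularForm.E₄) = (PowerSeries.C (1 : ℤ) +
          (p : PowerSeries ℤ) * (PowerSeries.C (q : ℤ) * sigmaInt 3)).map (Int.castRingHom ℂ) := by
      rw [ModularForm.coe_mcast]
      refine (FA.Tau.hasQ_eFour.qExpansion_eq one_pos).trans ?_
      congr 1
      rw [eFourInt_eq, natCast_series, ← mul_assoc, ← map_mul, map_one]
      congr 3
      exact_mod_cast hq
    obtain ⟨G, Y', U, hG, hGq, hGW⟩ := exists_level_unit_of_form (by norm_num) _ hE
    have hdvd : p - 1 ∣ 4 := by interval_cases p <;> simp_all (config := { decide := true })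
    refine ⟨4, p - 1, 1, G, Y', U, by decide, by norm_num, hdvd, rfl, ?_, hG, hGq, hGW⟩
    exact fun hd => hp.ne_one (by simpa [Int.natCast_dvd] using hd)
  · obtain ⟨B, G, Y, U, hB, hG, hGq, hGW⟩ := exists_level_unit (p := p) h
    exact ⟨p - 1, 4, B, G, Y, U, hp.even_sub_one (by omega), by omega, dvd_rfl, mul_comm _ _, hB,
      hG, hGq, hGW⟩

/-- **The congruence for every prime**, with the denominator of the large weight. -/
theorem siegelTotal_congr_any {k : ℕ} (hk : Even k) (hk2 : 2 ≤ k) (hw : 4 ≤ k * finrank ℚ K)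
    (a : ℕ) :
    ∃ A : ℕ, ∀ a' t : ℕ, A ≤ a' → t ≠ 0 → ∃ u z : ℤ, ¬(p : ℤ) ∣ u ∧
      (u : ℚ) * (staudtDen ((k + 4 * (p - 1) * (p ^ a' * t)) * finrank ℚ K) : ℚ) *
        (siegelTotal K (k + 4 * (p - 1) * (p ^ a' * t)) - eulerVal K p k) =
          (p : ℚ) ^ (a + 1) * z := by
  obtain ⟨w₀, c, B, G, Y, U, h2, h0, hdiv, hc, hB, hG, hGq, hGW⟩ := exists_unit_any (p := p)
  obtain ⟨A, hA⟩ := siegelTotal_congr_of_unit (K := K) hB hG hGq hGW h2 h0 hdiv hk hk2 hw a
  have hc0 : c ≠ 0 := fun h => by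
    rw [h, mul_zero] at hc
    have := (Fact.out : p.Prime).two_le
    omega
  refine ⟨A, fun a' t ha ht => ?_⟩
  obtain ⟨u, z, hu, h⟩ := hA a' (c * t) ha (mul_ne_zero hc0 ht)
  have e : w₀ * (p ^ a' * (c * t)) = 4 * (p - 1) * (p ^ a' * t) := by rw [hc]; ring
  rw [e] at h
  exact ⟨u, z, hu, h⟩

variable (p) in
/-- The value without Euler factors is not zero. -/
theorem eulerVal_ne_zero {k : ℕ} (hk : Even k) (hk2 : 2 ≤ k) (hw : 4 ≤ k * finrank ℚ K) :
    eulerVal K p k ≠ 0 := by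
  refine mul_ne_zero (Finset.prod_ne_zero_iff.2 fun P hP h => ?_)
    (siegelTotal_ne_zero hk hk2 hw)
  rw [sub_eq_zero, eq_comm, pow_eq_one_iff_of_nonneg (Nat.cast_nonneg _) (by omega),
    Nat.cast_eq_one, Ideal.absNorm_eq_one_iff] at h
  exact (mem_primesAt.1 hP).1.ne_top h

/-- The `p`-part of the denominator. -/
theorem pow_not_dvd_staudtDen {w e : ℕ} (he : w.factorization p < e) :
    ¬p ^ (e + 2) ∣ staudtDen w := by
  have hp : p.Prime := Fact.out
  intro hd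
  rw [hp.pow_dvd_iff_le_factorization (staudtDen_ne_zero w), staudtDen,
    Nat.factorization_mul (pow_ne_zero _ two_ne_zero) (Finset.prod_ne_zero_iff.2 fun q hq =>
      pow_ne_zero _ (Finset.mem_filter.1 hq).2.1.ne_zero), Finsupp.add_apply,
    Nat.factorization_prod (fun q hq => pow_ne_zero _ (Finset.mem_filter.1 hq).2.1.ne_zero),
    Finsupp.finsetSum_apply, Nat.Prime.factorization_pow Nat.prime_two, Finsupp.single_apply,
    Finset.sum_congr rfl fun q hq => by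
      rw [(Finset.mem_filter.1 hq).2.1.factorization_pow, Finsupp.single_apply],
    Finset.sum_ite_eq'] at hd
  split_ifs at hd with h1 h2 h2
  · obtain rfl := h1
    exact (Finset.mem_filter.1 h2).2.2.1 rfl
  · subst h1; omega
  · omega
  · omega

/-- **The numerators are bounded at `p`** along a progression of weights. -/
theorem exists_pow_not_dvd_num {k : ℕ} (hk : Even k) (hk4 : 4 ≤ k) :
    ∃ M C : ℕ, M ≠ 0 ∧ ∀ s : ℕ, s ≠ 0 → ¬p ^ C ∣ (siegelTotal K (k + M * s)).num.natAbs := by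
  have hp : p.Prime := Fact.out
  have hw4 : 4 ≤ k * finrank ℚ K := hk4.trans (Nat.le_mul_of_pos_right _ finrank_pos)
  obtain ⟨r, hr⟩ : ∃ r, r = eulerVal K p k := ⟨_, rfl⟩
  have hr0 : (0 : ℝ) < ‖(r : ℚ_[p])‖ :=
    norm_pos_iff.2 (Rat.cast_ne_zero.2 (hr ▸ eulerVal_ne_zero p hk (by omega) hw4))
  obtain ⟨C₀, hC₀⟩ := PadicInt.exists_pow_neg_lt p hr0
  obtain ⟨C, hC0, hC⟩ : ∃ C : ℕ, 0 < C ∧ (p : ℝ) ^ (-(C : ℤ)) < ‖(r : ℚ_[p])‖ :=
    ⟨C₀ + 1, Nat.succ_pos _,
      (TotallyRealKummer.pow_neg_le (Nat.le_succ C₀)).trans_lt hC₀⟩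
  obtain ⟨w, hw⟩ : ∃ w, w = k * finrank ℚ K := ⟨_, rfl⟩
  have hw0 : w ≠ 0 := hw ▸ mul_ne_zero (by omega) finrank_pos.ne'
  obtain ⟨e, he⟩ : ∃ e, e = w.factorization p + 1 := ⟨_, rfl⟩
  obtain ⟨A, hA⟩ := siegelTotal_congr_any (K := K) (p := p) hk (by omega) hw4 (C + (e + 2))
  refine ⟨4 * (p - 1) * p ^ (A + e), C,
    mul_ne_zero (mul_ne_zero (by norm_num) (by have := hp.two_le; omega))
      (pow_ne_zero _ hp.ne_zero), fun s hs hd => ?_⟩
  obtain ⟨u, z, hu, h⟩ := hA (A + e) s (Nat.le_add_right _ _) hs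
  rw [← mul_assoc _ (p ^ (A + e)) s] at h
  obtain ⟨k', hk'⟩ : ∃ k', k' = k + 4 * (p - 1) * p ^ (A + e) * s := ⟨_, rfl⟩
  rw [← hk', ← hr] at h
  rw [← hk'] at hd
  have hfac : (k' * finrank ℚ K).factorization p < e := by
    by_contra hh
    have hd' : p ^ e ∣ k' * finrank ℚ K :=
      (hp.pow_dvd_iff_le_factorization (mul_ne_zero (by omega) finrank_pos.ne')).2 (not_lt.1 hh)
    have h2 : p ^ e ∣ 4 * (p - 1) * p ^ (A + e) * s * finrank ℚ K :=
      ((dvd_mul_of_dvd_right (pow_dvd_pow p (Nat.le_add_left e A)) _).mul_right _).mul_right _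
    rw [hk', add_mul, Nat.dvd_add_left h2, ← hw, hp.pow_dvd_iff_le_factorization hw0] at hd'
    omega
  have hden := pow_not_dvd_staudtDen (p := p) hfac
  have hu1 : ‖((u : ℚ) : ℚ_[p])‖ = 1 := by
    rw [Rat.cast_intCast]
    exact le_antisymm (Padic.norm_int_le_one u)
      (not_lt.1 fun hh => hu (Padic.norm_intCast_lt_one_iff.1 hh))
  have hd1 : (p : ℝ) ^ (-((e + 2 : ℕ) : ℤ)) <
      ‖(((staudtDen (k' * finrank ℚ K) : ℕ) : ℚ) : ℚ_[p])‖ := by
    rw [Rat.cast_natCast, ← not_le,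
      show ((staudtDen (k' * finrank ℚ K) : ℕ) : ℚ_[p]) =
        ((staudtDen (k' * finrank ℚ K) : ℤ) : ℚ_[p]) from (Int.cast_natCast _).symm,
      Padic.norm_int_le_pow_iff_dvd]
    exact_mod_cast hden
  have hz : ‖((z : ℚ) : ℚ_[p])‖ ≤ 1 := by
    rw [Rat.cast_intCast]
    exact Padic.norm_int_le_one z
  have hdiff : ‖((siegelTotal K k' - r : ℚ) : ℚ_[p])‖ ≤ (p : ℝ) ^ (-(C : ℤ)) := by
    by_contra hh
    have h' := congrArg (fun x : ℚ => ‖(x : ℚ_[p])‖) h
    simp only [Rat.cast_mul, Rat.cast_pow, norm_mul, hu1, one_mul, Rat.cast_natCast,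
      Padic.norm_p_pow] at h'
    have h1 := mul_lt_mul'' hd1 (not_le.1 hh) (zpow_nonneg (Nat.cast_nonneg _) _)
      (zpow_nonneg (Nat.cast_nonneg _) _)
    rw [Rat.cast_natCast] at h1
    rw [h'] at h1
    have hp0 : (p : ℝ) ≠ 0 := Nat.cast_ne_zero.2 hp.ne_zero
    have h3 : (p : ℝ) ^ (-((C + (e + 2) + 1 : ℕ) : ℤ)) ≤
        (p : ℝ) ^ (-((e + 2 : ℕ) : ℤ)) * (p : ℝ) ^ (-(C : ℤ)) := by
      rw [← zpow_add₀ hp0]
      exact zpow_le_zpow_right₀ (by exact_mod_cast hp.one_lt.le) (by omega)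
    exact absurd (lt_of_lt_of_le h1 ((mul_le_of_le_one_right
      (zpow_nonneg (Nat.cast_nonneg _) _) hz).trans h3)) (lt_irrefl _)
  have hnum : ‖((siegelTotal K k' : ℚ) : ℚ_[p])‖ ≤ (p : ℝ) ^ (-(C : ℤ)) := by
    have hq : ¬p ∣ (siegelTotal K k').den := fun hh => hp.ne_one
      (Nat.eq_one_of_dvd_coprimes (siegelTotal K k').reduced
        ((dvd_pow_self p hC0.ne').trans hd) hh)
    rw [← Rat.num_div_den (siegelTotal K k'), Rat.cast_div, Rat.cast_intCast, Rat.cast_natCast,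
      norm_div, show ‖((siegelTotal K k').den : ℚ_[p])‖ = 1 from
        Padic.norm_natCast_eq_one_iff.2 (hp.coprime_iff_not_dvd.2 hq), div_one,
      Padic.norm_int_le_pow_iff_dvd]
    exact_mod_cast Int.natCast_dvd.2 hd
  refine hC.not_ge ?_
  rw [show (r : ℚ_[p]) = (siegelTotal K k' : ℚ_[p]) + -((siegelTotal K k' - r : ℚ) : ℚ_[p]) by
    push_cast; ring]
  exact (Padic.nonarchimedean _ _).trans (max_le hnum (by rwa [norm_neg]))

end FA.IrregularTotallyReal

end
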